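/-
GATE-F (S44) / GF-KCOVER-INST-ETA (helper23), file 1: **the node arithmetic WITHOUT `N0 ∣ T`**,
Mathlib only.  Variant of helper84's `GF/KCover/Node/Arith.node_congr`.

`U` a commutative group, `w1 w2 n : U → ℤ` additive, `ϖ` with `(w1, w2, n) ϖ = (1, 1, 0)`,
`θ` with `(w1, w2, n) θ = (0, T, N0)`, and the node lemma `NL : w1 u = 0 → w2 u = 0 → p ∣ n u`.
If `p ∤ N0` (NO divisibility `N0 ∣ T` is assumed) then for every `f ∈ U`

    `p ∣ T * n f − N0 * (w2 f − w1 f)`,   i.e.  `w2 f − w1 f ≡ (T · N0⁻¹) · n f  (mod p)`.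

Proof: `u := f ^ T * ϖ ^ (−a T) * θ ^ (−(b − a))`, `a = w1 f`, `b = w2 f`, has `w1 u = w2 u = 0`
and `n u = T * n f − (b − a) * N0`.

Also the elementary arithmetic `not_dvd_mul_of_le_twelve` behind `p ∤ N0_s` for the eta quotient:
`N0 = μ * e`, `0 < μ < p`, `4 ≤ μ`, `μ * e ≤ 12`, `5 ≤ p`.
-/
import Mathlib

set_option autoImplicit false
set_option linter.unusedSectionVars false

namespace Fermat.Agent.GF.KCover.Eta.Arith

variable {U : Type*} [CommGroup U]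

section Additive

variable (w : U → ℤ) (hmul : ∀ y z, w (y * z) = w y + w z)

include hmul in
theorem add_one : w 1 = 0 := by
  have h := hmul 1 1
  rw [mul_one] at h
  linarith

include hmul in
theorem add_inv (y : U) : w y⁻¹ = -w y := by
  have h := hmul y y⁻¹
  rw [mul_inv_cancel, add_one w hmul] at h
  linarith

include hmul in
theorem add_pow (y : U) (k : ℕ) : w (y ^ k) = k * w y := by
  induction k with
  | zero => rw [pow_zero, add_one w hmul]; simp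
  | succ k ih => rw [pow_succ, hmul, ih]; push_cast; ring

include hmul in
theorem add_zpow (y : U) (k : ℤ) : w (y ^ k) = k * w y := by
  cases k with
  | ofNat k => rw [Int.ofNat_eq_natCast, zpow_natCast, add_pow w hmul]
  | negSucc k =>
    rw [zpow_negSucc, add_inv w hmul, add_pow w hmul, Int.negSucc_eq]
    push_cast
    ring

end Additive

/-- **the node relation in congruence form, without `N0 ∣ T`** (integer form, no hypothesis on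
`N0` at all). -/
theorem node_congr_mul {p : ℕ} (w1 w2 n : U → ℤ)
    (h1 : ∀ y z, w1 (y * z) = w1 y + w1 z) (h2 : ∀ y z, w2 (y * z) = w2 y + w2 z)
    (hn : ∀ y z, n (y * z) = n y + n z)
    {ϖ θ : U} (hϖ1 : w1 ϖ = 1) (hϖ2 : w2 ϖ = 1) (hϖn : n ϖ = 0)
    {T N0 : ℤ} (hθ1 : w1 θ = 0) (hθ2 : w2 θ = T) (hθn : n θ = N0)
    (NL : ∀ u : U, w1 u = 0 → w2 u = 0 → (p : ℤ) ∣ n u) (f : U) :
    (p : ℤ) ∣ T * n f - N0 * (w2 f - w1 f) := by
  set a := w1 f with ha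
  set b := w2 f with hb
  have key := NL (f ^ T * ϖ ^ (-(a * T)) * θ ^ (-(b - a))) ?_ ?_
  · rw [hn, hn, add_zpow n hn, add_zpow n hn, add_zpow n hn, hϖn, hθn] at key
    have h3 : T * n f + -(a * T) * 0 + -(b - a) * N0 = T * n f - N0 * (b - a) := by
      ring
    rw [h3] at key
    exact key
  · rw [h1, h1, add_zpow w1 h1, add_zpow w1 h1, add_zpow w1 h1, hϖ1, hθ1, ← ha]
    ring
  · rw [h2, h2, add_zpow w2 h2, add_zpow w2 h2, add_zpow w2 h2, hϖ2, hθ2, ← hb]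
    ring

/-- the same in `ZMod p`, multiplied form. -/
theorem node_congr_mul_zmod {p : ℕ} (w1 w2 n : U → ℤ)
    (h1 : ∀ y z, w1 (y * z) = w1 y + w1 z) (h2 : ∀ y z, w2 (y * z) = w2 y + w2 z)
    (hn : ∀ y z, n (y * z) = n y + n z)
    {ϖ θ : U} (hϖ1 : w1 ϖ = 1) (hϖ2 : w2 ϖ = 1) (hϖn : n ϖ = 0)
    {T N0 : ℤ} (hθ1 : w1 θ = 0) (hθ2 : w2 θ = T) (hθn : n θ = N0)
    (NL : ∀ u : U, w1 u = 0 → w2 u = 0 → (p : ℤ) ∣ n u) (f : U) :
    ((N0 : ℤ) : ZMod p) * ((w2 f - w1 f : ℤ) : ZMod p) =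
      ((T : ℤ) : ZMod p) * ((n f : ℤ) : ZMod p) := by
  have h := node_congr_mul w1 w2 n h1 h2 hn hϖ1 hϖ2 hϖn hθ1 hθ2 hθn NL f
  have h' := (ZMod.intCast_zmod_eq_zero_iff_dvd _ p).2 h
  push_cast at h'
  push_cast
  linear_combination -h'

/-- **the node relation with `E := T · N0⁻¹ ∈ ZMod p`**, `p` prime, `p ∤ N0`. -/
theorem node_congr_ndvd {p : ℕ} [Fact p.Prime] (w1 w2 n : U → ℤ)
    (h1 : ∀ y z, w1 (y * z) = w1 y + w1 z) (h2 : ∀ y z, w2 (y * z) = w2 y + w2 z)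
    (hn : ∀ y z, n (y * z) = n y + n z)
    {ϖ θ : U} (hϖ1 : w1 ϖ = 1) (hϖ2 : w2 ϖ = 1) (hϖn : n ϖ = 0)
    {T N0 : ℤ} (hθ1 : w1 θ = 0) (hθ2 : w2 θ = T) (hθn : n θ = N0)
    (hN0 : ¬ (p : ℤ) ∣ N0)
    (NL : ∀ u : U, w1 u = 0 → w2 u = 0 → (p : ℤ) ∣ n u) (f : U) :
    ((w2 f - w1 f : ℤ) : ZMod p) =
      (((T : ℤ) : ZMod p) * ((N0 : ℤ) : ZMod p)⁻¹) * ((n f : ℤ) : ZMod p) := by
  have h := node_congr_mul_zmod w1 w2 n h1 h2 hn hϖ1 hϖ2 hϖn hθ1 hθ2 hθn NL f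
  have hne : ((N0 : ℤ) : ZMod p) ≠ 0 := by
    rw [Ne, ZMod.intCast_zmod_eq_zero_iff_dvd]
    exact hN0
  field_simp
  linear_combination h

/-- `(T · N0⁻¹) · N0 = T` in `ZMod p` when `p ∤ N0` (the middle clause of `F2Hyp`). -/
theorem mul_inv_mul_cancel_zmod {p : ℕ} [Fact p.Prime] {T N0 : ℤ} (hN0 : ¬ (p : ℤ) ∣ N0) :
    (((T : ℤ) : ZMod p) * ((N0 : ℤ) : ZMod p)⁻¹) * ((N0 : ℤ) : ZMod p) = ((T : ℤ) : ZMod p) := by
  have hne : ((N0 : ℤ) : ZMod p) ≠ 0 := by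
    rw [Ne, ZMod.intCast_zmod_eq_zero_iff_dvd]
    exact hN0
  field_simp

/-- **the arithmetic behind `p ∤ N0_s`**: `N0 = μ · e` with `0 < μ < p` and `μ · e ≤ 12`,
`4 ≤ μ`, `5 ≤ p`, `1 ≤ e`. -/
theorem not_dvd_mul_of_le_twelve {p : ℕ} (hp : p.Prime) (hp5 : 5 ≤ p) {μ e : ℕ} (hμ4 : 4 ≤ μ)
    (hμp : μ < p) (he : 1 ≤ e) (h12 : μ * e ≤ 12) : ¬ p ∣ μ * e := by
  intro h
  rcases (Nat.Prime.dvd_mul hp).1 h with h1 | h1
  · exact absurd (Nat.le_of_dvd (by omega) h1) (by omega)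
  · have h5 : 5 ≤ e := le_trans hp5 (Nat.le_of_dvd (by omega) h1)
    nlinarith

/-- integer form. -/
theorem not_dvd_mul_of_le_twelve_int {p : ℕ} (hp : p.Prime) (hp5 : 5 ≤ p) {μ e : ℕ}
    (hμ4 : 4 ≤ μ) (hμp : μ < p) (he : 1 ≤ e) (h12 : μ * e ≤ 12) :
    ¬ (p : ℤ) ∣ ((μ * e : ℕ) : ℤ) := by
  rw [Int.natCast_dvd_natCast]
  exact not_dvd_mul_of_le_twelve hp hp5 hμ4 hμp he h12

/-- `12 (p − 1)` is nonzero in `ZMod p` for `5 ≤ p`. -/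
theorem twelve_mul_pred_ne_zero {p : ℕ} [hpF : Fact p.Prime] (hp5 : 5 ≤ p) :
    (((12 * ((p : ℤ) - 1) : ℤ)) : ZMod p) ≠ 0 := by
  rw [Ne, ZMod.intCast_zmod_eq_zero_iff_dvd]
  intro h
  have h1 : (p : ℤ) ∣ 12 := by
    have h2 : (p : ℤ) ∣ 12 * (p : ℤ) - 12 * ((p : ℤ) - 1) :=
      dvd_sub (Dvd.intro_left 12 rfl) h
    have h3 : 12 * (p : ℤ) - 12 * ((p : ℤ) - 1) = 12 := by ring
    rwa [h3] at h2
  have h4 : p ∣ 12 := by exact_mod_cast h1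
  have h5 : p ∣ 2 ^ 2 * 3 := by simpa using h4
  rcases (Nat.Prime.dvd_mul hpF.out).1 h5 with h6 | h6
  · have := (Nat.prime_dvd_prime_iff_eq hpF.out Nat.prime_two).1 (hpF.out.dvd_of_dvd_pow h6)
    omega
  · have := (Nat.prime_dvd_prime_iff_eq hpF.out Nat.prime_three).1 h6
    omega

end Fermat.Agent.GF.KCover.Eta.Arith
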