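/-
GATE-F (S44) / GF-F2PLUG (helper23): **the body of `Integrate2.SupplyF2` from FIELD + REDL +
NL-on-`Us` + clause (f) ONLY** — helper31's `NRAsmSub.f2_of_nodes_sub` with every
`θ / Us / ϖ / n / hn / hη` binder discharged on the concrete objects that are on main:

* `Wd := WDataOf.wData T hA hD₁ hD₂ hγ₁ hγ₂`, `hvK := WDataOf.hvK …` (helper3);
* `Us s j := UsInst.Us T`, `hϖU`, `hUf`, `hθU` (helper31 `UsInst`);
* `n s j := OrdRedExt.nodeOrd (R1 (j + as s)) (hun1 _) (P s) _`, `hn_mul`, `hn_const`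
  (helper42 `nodeOrd_mul`, `nodeOrd_const`);
* `θ := EtaUnit.etaUnit T h.dvd`, `Tt := 12 (p − 1)`, `N0 s := ordRed_{P s}(etaQ)`,
  `hθ1`, `hθ2` (helper96 `EtaUnitW`), `hθn` (helper96 `nodeOrd_etaUnit`);
* `hN0` from clause (f) of helper77's `GF/Eis/NodesOrd.exists_nodalHyp_ss_f` (VERBATIM spelling),
  `hTt` (`Eta/Arith.twelve_mul_pred_ne_zero`);
* `hn` (helper42 `trop_eq_ordRed_kummer`, `a := 1`), `hη` (`rfl`).

Remaining binders: the context (`C hA hKU D a ha hg hlc`), FIELD (`hD₁ hD₂ hγ₁ hγ₂`),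
REDL (`R1 hun1 hext`: one reduction datum of the cover per sheet extending `redDataBar N A`),
`as bs`, `NL` on `UsInst.Us T`, and clause (f).
-/
import Fermat.Agent.GF.F2Asm.NRAsmSub
import Fermat.Agent.GF.F2Asm.EtaUnitW
import Fermat.Agent.GF.F2Asm.UsInst
import Fermat.Agent.GF.Trop.Modular
import Fermat.Agent.GF.KCover.Eta.Arith

set_option autoImplicit false
set_option linter.unusedSectionVars false

noncomputable section

namespace Fermat.Agent.GF.KCover.Eta.F2Plug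

open AlgebraicCurve ModularCurve Polynomial IsLocalRing
open Fermat.Agent.Common_helper32
open Fermat.Agent.GJ Fermat.Agent.GJ.KumGroup Fermat.Agent.GJ.Kum.KumType Fermat.Agent.S24
open Fermat.Agent.GJ.J1 Fermat.Agent.GJ.J1.Val Fermat.Agent.GK.AL Fermat.Agent.GK.SS
open Fermat.Agent.GJ.CycChar Fermat.Agent.GB.A.A6.ECDet
open Fermat.Agent.GH.Closure Fermat.Agent.GF.Peu Fermat.Agent.GF.ETate Fermat.Agent.GF.Trop
open Fermat.Agent.GF.Setup.Plane Fermat.Agent.GF.Shape.Sub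
open Fermat.Agent.GF.F2Asm.KummerExt Fermat.Agent.GF.F2Asm.PeuBridge
open Fermat.Agent.GF.KCover Fermat.Agent.GF.F2Asm.Inst Fermat.Agent.GF.F2Asm.NRAsm
open Fermat.Agent.GF.KCover.Field Fermat.Agent.GF.KCover.Field.Disc
open Fermat.Agent.GF.KCover.Field.WDataOf Fermat.Agent.GF.F2Asm.EtaUnit
open Fermat.Agent.GF.F2Asm.EtaUnitW Fermat.Agent.GF.F2Asm.UsInst
open Fermat.Agent.GF.KCover.Node.OrdRedExt Fermat.Agent.GL.Eta

variable {N : ℕ} [NeZero N] {p : ℕ} [hpF : Fact p.Prime] [NeZero p]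
  {A : ValuationSubring Kb} {ζ : Kb} (T : TameDatum N p A ζ)

attribute [local instance] actFK algE'

/-- the node order downstairs of the eta quotient is the order of its first reduction. -/
theorem ordRed_etaQ_eq (hd : p ∣ N) (Pl : Place (ResidueField A) (FresBar N A)) :
    ordRed (redDataBar N A) (Fermat.Agent.GS.F.unram_redDataBar N A) Pl (etaQ N p hd) =
      Pl.ord ((redDataBar N A).red ⟨etaQ N p hd, etaQ_mem_Rw1 N A p hd⟩) :=
  ordRed_of_isU _ Pl (R := redDataBar N A) (u := (etaQ N p hd : FN N))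
    ⟨Fermat.Agent.GL.Eta.etaQ_ne_zero N p hd, etaQ_mem_Rw1 N A p hd, etaQ_inv_mem_Rw1 N A p hd⟩

variable {W : WeierstrassCurve ℤ}

/-- **the body of `SupplyF2` from FIELD + REDL + NL-on-`Us` + clause (f).** -/
theorem f2_of_field_redl_nl (h : ExactDvd p N) (hp5 : 5 ≤ p) (C : Copy W p N)
    (hA : (p : Qb) ∈ A.nonunits) (hKU : KummerUnit W p A ζ)
    {M₀ : AddSubgroup (Additive (Kum Kb (FK N) p))}
    (D : LineData (gal N p) (A.inertiaSubgroupIn ℚ) C.Y0 M₀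
      (fun σ => ((cyc p σ : (ZMod p)ˣ) : ZMod p)))
    (a : ZMod p) (ha : a ≠ 0)
    (hg : (Additive.ofMul (Kum.mk T.g) : Additive (Kum Kb (FK N) p)) = a • D.w₀)
    (hlc : (qEmb N T.g₀).leadingCoeff = 1)
    -- FIELD (helper3 `WDataOf`)
    (hD₁ : IsDisc (valF₁ T (galVal1 N A)) (ϖ₁ T)) (hD₂ : IsDisc (valF₁ T (galVal2 N A h)) (ϖ₁ T))
    {γ₁ : Pack.Lc hD₁} (hγ₁ : γ₁ ^ p = Pack.jc hD₁ (g₁ T))
    {γ₂ : Pack.Lc hD₂} (hγ₂ : γ₂ ^ p = Pack.jc hD₂ (g₁ T))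
    -- the frame and the sheets
    {ι : Type} (P : ι → Place (ResidueField A) (FresBar N A)) (as bs : ι → ZMod p)
    -- REDL: one reduction datum of the cover per sheet, extending the first Gauss reduction
    (R1 : ZMod p → RedData Kb T.Fp (ResidueField A) (FresBar N A))
    (hun1 : ∀ j, Unram (R1 j)) (hext : ∀ j, RedExt (redDataBar N A) (R1 j))
    -- the node lemma on `Us`
    (NL : ∀ s j, ∀ u ∈ Us T,
      (wData T hA hD₁ hD₂ hγ₁ hγ₂).w₁ (j + as s) u = 0 →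
      (wData T hA hD₁ hD₂ hγ₁ hγ₂).w₂ (j + bs s) u = 0 →
      (p : ℤ) ∣ nodeOrd (R1 (j + as s)) (hun1 (j + as s)) (P s)
        (fixedUnits (tameGroup A ζ) T.Fp) u)
    -- clause (f) of `GF/Eis/NodesOrd.exists_nodalHyp_ss_f`
    (hf : ∀ s, ¬ (p : ℤ) ∣
      (P s).ord ((redDataBar N A).red ⟨etaQ N p h.dvd, etaQ_mem_Rw1 N A p h.dvd⟩)) :
    ∃ (E : ι → ZMod p) (κ₀ : ZMod p), κ₀ ≠ 0 ∧
      (∀ s, E s * ((ordRed (redDataBar N A) (Fermat.Agent.GS.F.unram_redDataBar N A) (P s)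
        (etaQ N p h.dvd) : ℤ) : ZMod p) = κ₀) ∧
      ∀ y ∈ C.Y0, Fermat.Agent.GF.Top.Skeleton.EConst E (trop1FN (q := p) N A P y) := by
  refine Fermat.Agent.GF.F2Asm.NRAsmSub.f2_of_nodes_sub T (wData T hA hD₁ hD₂ hγ₁ hγ₂) C hA hKU D
    a ha hg hlc (hvK T hA hD₁ hD₂ hγ₁ hγ₂) as bs (fun _ _ => Us T)
    (fun _ _ => piUnit_mem_Us T) (fun u _ f hfk _ _ => mem_Us_of_kummer T u f hfk)
    (fun s j => nodeOrd (R1 (j + as s)) (hun1 (j + as s)) (P s)
      (fixedUnits (tameGroup A ζ) T.Fp))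
    (fun s j y z => nodeOrd_mul (R1 (j + as s)) (hun1 (j + as s)) (P s) _ y z)
    (fun s j c hc => ?_)
    (etaUnit T h.dvd) (fun _ _ => mem_Us_of_etaQ T p h.dvd _ (coe_etaUnit T h.dvd))
    (12 * ((p : ℤ) - 1))
    (fun s => ordRed (redDataBar N A) (Fermat.Agent.GS.F.unram_redDataBar N A) (P s)
      (etaQ N p h.dvd))
    (fun s j => w₁_etaUnit_wData T h hA hD₁ hD₂ hγ₁ hγ₂ (j + as s))
    (fun s j => w₂_etaUnit_wData T h hA hD₁ hD₂ hγ₁ hγ₂ (j + bs s))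
    (fun s j => nodeOrd_etaUnit T (redDataBar N A) (Fermat.Agent.GS.F.unram_redDataBar N A)
      (R1 (j + as s)) (hun1 (j + as s)) (hext (j + as s)) (P s) h.dvd)
    (fun s => ?_) (Fermat.Agent.GF.KCover.Eta.Arith.twelve_mul_pred_ne_zero hp5) NL
    (fun y => trop1FN (q := p) N A P y) (fun u _ f hfk s j => ?_)
    (fun s => ((ordRed (redDataBar N A) (Fermat.Agent.GS.F.unram_redDataBar N A) (P s)
      (etaQ N p h.dvd) : ℤ) : ZMod p)) (fun _ => rfl)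
  · -- `hn_const`
    obtain ⟨c₀, hc₀⟩ := T.mem_C.mp hc
    exact nodeOrd_const (R1 (j + as s)) (hun1 (j + as s)) (P s) _ c hc₀
  · -- `hN0`
    rw [Ne, ZMod.intCast_zmod_eq_zero_iff_dvd, ordRed_etaQ_eq h.dvd (P s)]
    exact hf s
  · -- `hn`
    obtain ⟨g, hg0, hfg⟩ := hfk
    show ((ordRed (R1 (j + as s)) (hun1 (j + as s)) (P s) (((f : T.Fpˣ) : T.Fp)) : ℤ) : ZMod p) =
      trop (redDataBar N A) (Fermat.Agent.GS.F.unram_redDataBar N A) p P
        (Additive.ofMul (Kum.mk u)) s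
    refine trop_eq_ordRed_kummer (hext (j + as s)) (Fermat.Agent.GS.F.unram_redDataBar N A)
      (hun1 (j + as s)) P s p u (a := 1) one_ne_zero hg0 ?_
    rw [map_one]
    exact hfg

end Fermat.Agent.GF.KCover.Eta.F2Plug
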